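/-
Project S27, cell (GEN) (helper1): `genusFF K F` (Weil repartitions of the Prelude) = the Riemann genus.
Prefix `s27gen_`.  Namespace `Fermat.Agent.S27`.

PART 1, THE ONE-STEP ANALYSIS.  `𝔸 = repartitions K F`, `𝔸(A) = repartitionsOf A`,
`S_A := 𝔸(A) ⊔ principalRepartitions` (so `H1 A = 𝔸 ⧸ S_A`).  For a place `v` with uniformiser `t` put
`e := s27gen_single v (t ^ (A v + 1))⁻¹` (the repartition supported at `v`).  Then

* `s27gen_step_le`      : `𝔸(A + v) ≤ 𝔸(A) ⊔ K ∙ e`;
* `s27gen_single_mem`   : `e ∈ 𝔸(A + v)`;
* `s27gen_single_mem_S_iff` : `e ∈ S_A ↔ ∃ f ∈ L(A + v), f ∉ L(A)`.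
-/
import Mathlib
import Fermat.Agent.JT3.Riemann.Main

set_option autoImplicit false
set_option linter.unusedSectionVars false
set_option linter.style.haveILetI false
set_option linter.unusedVariables false

noncomputable section

namespace Fermat.Agent.S27

open AlgebraicCurve Fermat.Agent.JT3 Fermat.Agent.S24 WithZero

universe u v
variable {K : Type u} {F : Type v} [Field K] [Field F] [Algebra K F]

/-! ### the value group `ℤᵐ⁰` -/

theorem s27gen_le_exp_of_lt_exp_succ {a : ℤᵐ⁰} {n : ℤ} (h : a < exp (n + 1)) : a ≤ exp n := by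
  rcases eq_or_ne a 0 with rfl | ha
  · exact zero_le
  · rw [← exp_log ha] at h ⊢
    rw [exp_lt_exp] at h
    rw [exp_le_exp]
    omega

theorem s27gen_exp_mul_exp (a b : ℤ) : (exp a : ℤᵐ⁰) * exp b = exp (a + b) := (exp_add a b).symm

/-! ### uniformisers and constants, in valuation form -/

theorem s27gen_exists_unif [IsAlgClosed K] (v : Place K F) :
    ∃ t : F, t ≠ 0 ∧ v.adicValuation t = exp (-1 : ℤ) := by
  obtain ⟨t, ht0, ht⟩ := rt_exists_ord_eq_one v
  exact ⟨t, ht0, by rw [v.adicValuation_eq_exp_neg_ord ht0, ht]⟩

theorem s27gen_val_zpow (v : Place K F) {t : F} (ht : v.adicValuation t = exp (-1 : ℤ)) (n : ℤ) :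
    v.adicValuation (t ^ n) = exp (-n) := by
  rw [map_zpow₀, ht, ← exp_zsmul]
  congr 1
  simp

theorem s27gen_val_zpow_inv (v : Place K F) {t : F} (ht : v.adicValuation t = exp (-1 : ℤ)) (n : ℤ) :
    v.adicValuation (t ^ n)⁻¹ = exp n := by
  rw [map_inv₀, s27gen_val_zpow v ht, exp_neg, inv_inv]

theorem s27gen_mem_of_val_le_one (v : Place K F) {a : F} (ha : v.adicValuation a ≤ 1) :
    a ∈ v.toValuationSubring := by
  rcases eq_or_ne a 0 with rfl | h0
  · exact zero_mem _
  · rw [hw_mem_iff_ord_nonneg v h0]
    rcases v.adicValuation_le_one_iff.1 ha with h | h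
    · exact absurd h h0
    · exact h

section const

variable [IsAlgClosed K] {x : F} (hx : rt_IsSepGen K x)

include hx in
/-- every element of `O_v` is congruent to a constant. -/
theorem s27gen_exists_const (v : Place K F) {a : F} (ha : v.adicValuation a ≤ 1) :
    ∃ c : K, v.adicValuation (a - algebraMap K F c) ≤ exp (-1 : ℤ) := by
  have := hx.isAlgebraic
  obtain ⟨c, hc⟩ := hw_exists_const x v (s27gen_mem_of_val_le_one v ha)
  refine ⟨c, ?_⟩
  rw [v.adicValuation_le_exp_iff]
  rcases hc with hc | hc
  · exact Or.inl (sub_eq_zero.2 hc)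
  · right
    omega

end const

/-! ### the repartition supported at one place -/

open Classical in
/-- the repartition with value `z` at `v` and `0` elsewhere. -/
def s27gen_single (v : Place K F) (z : F) : ↥(repartitions K F) :=
  ⟨fun w => if w = v then z else 0, mem_repartitions_of_finite (by
    refine (Set.finite_singleton v).subset fun w hw => ?_
    by_contra hne
    apply hw
    have : w ≠ v := hne
    simp [if_neg this])⟩

theorem s27gen_single_same (v : Place K F) (z : F) :
    (s27gen_single v z : Place K F → F) v = z := by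
  simp [s27gen_single]

theorem s27gen_single_of_ne (v : Place K F) (z : F) {w : Place K F} (h : w ≠ v) :
    (s27gen_single v z : Place K F → F) w = 0 := by
  simp [s27gen_single, if_neg h]

/-! ### coordinates of the `K`-module structure of `𝔸` -/

theorem s27gen_smul_apply (c : K) (α : ↥(repartitions K F)) (w : Place K F) :
    ((c • α : ↥(repartitions K F)) : Place K F → F) w =
      algebraMap K F c * (α : Place K F → F) w := by
  simp [Algebra.smul_def]

theorem s27gen_sub_apply (α β : ↥(repartitions K F)) (w : Place K F) :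
    ((α - β : ↥(repartitions K F)) : Place K F → F) w =
      (α : Place K F → F) w - (β : Place K F → F) w := by
  simp

theorem s27gen_add_apply (α β : ↥(repartitions K F)) (w : Place K F) :
    ((α + β : ↥(repartitions K F)) : Place K F → F) w =
      (α : Place K F → F) w + (β : Place K F → F) w := by
  simp

/-- the principal repartition of `f`. -/
def s27gen_const (f : F) : ↥(repartitions K F) := algebraMap F ↥(repartitions K F) f

theorem s27gen_const_apply (f : F) (w : Place K F) :
    (s27gen_const (K := K) f : Place K F → F) w = f := by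
  simp [s27gen_const]

theorem s27gen_const_mem (f : F) : s27gen_const (K := K) f ∈ principalRepartitions K F :=
  mem_principalRepartitions_iff.2 ⟨f, funext fun w => s27gen_const_apply f w⟩

/-! ### divisors `A + v` -/

theorem s27gen_add_single_same (A : Divisor K F) (v : Place K F) :
    (A + Finsupp.single v 1 : Divisor K F) v = A v + 1 := by
  rw [Finsupp.add_apply, Finsupp.single_eq_same]

theorem s27gen_add_single_of_ne (A : Divisor K F) (v : Place K F) {w : Place K F} (h : w ≠ v) :
    (A + Finsupp.single v 1 : Divisor K F) w = A w := by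
  rw [Finsupp.add_apply, Finsupp.single_eq_of_ne h, add_zero]

/-! ### the one-step analysis -/

section step

variable [IsAlgClosed K] {x : F} (hx : rt_IsSepGen K x)

/-- `e ∈ 𝔸(A + v)`. -/
theorem s27gen_single_mem (A : Divisor K F) (v : Place K F) {t : F}
    (ht : v.adicValuation t = exp (-1 : ℤ)) :
    s27gen_single v (t ^ (A v + 1))⁻¹ ∈ repartitionsOf (A + Finsupp.single v 1) := by
  intro w
  by_cases hwv : w = v
  · subst hwv
    rw [s27gen_single_same, s27gen_val_zpow_inv w ht, s27gen_add_single_same]
  · rw [s27gen_single_of_ne v _ hwv, map_zero]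
    exact zero_le

include hx in
/-- `𝔸(A + v) ≤ 𝔸(A) ⊔ K ∙ e`. -/
theorem s27gen_step_le (A : Divisor K F) (v : Place K F) {t : F}
    (ht : v.adicValuation t = exp (-1 : ℤ)) :
    repartitionsOf (A + Finsupp.single v 1) ≤
      repartitionsOf A ⊔ Submodule.span K {s27gen_single v (t ^ (A v + 1))⁻¹} := by
  intro α hα
  set n : ℤ := A v + 1 with hn
  set e := s27gen_single v (t ^ n)⁻¹ with he
  -- `q := α v * t ^ n ∈ O_v`
  have hq : v.adicValuation ((α : Place K F → F) v * t ^ n) ≤ 1 := by
    rw [map_mul, s27gen_val_zpow v ht]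
    have h1 := hα v
    rw [s27gen_add_single_same] at h1
    calc v.adicValuation ((α : Place K F → F) v) * exp (-n)
        ≤ exp (A v + 1) * exp (-n) := mul_le_mul_left h1 _
      _ = 1 := by rw [s27gen_exp_mul_exp, hn, add_neg_cancel, exp_zero]
  obtain ⟨c, hc⟩ := s27gen_exists_const hx v hq
  have hmem : α - c • e ∈ repartitionsOf A := by
    intro w
    by_cases hwv : w = v
    · subst hwv
      have ht0 : t ≠ 0 := by
        intro h0
        rw [h0, map_zero] at ht
        exact exp_ne_zero ht.symm
      have hfac : ((α - c • e : ↥(repartitions K F)) : Place K F → F) w =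
          (t ^ n)⁻¹ * ((α : Place K F → F) w * t ^ n - algebraMap K F c) := by
        rw [s27gen_sub_apply, s27gen_smul_apply, he, s27gen_single_same]
        have : t ^ n ≠ 0 := zpow_ne_zero _ ht0
        field_simp
      rw [hfac, map_mul, s27gen_val_zpow_inv w ht]
      calc exp n * w.adicValuation ((α : Place K F → F) w * t ^ n - algebraMap K F c)
          ≤ exp n * exp (-1 : ℤ) := mul_le_mul_right hc _
        _ = exp (A w) := by rw [s27gen_exp_mul_exp, hn]; congr 1; ring
    · have h1 := hα w
      rw [s27gen_add_single_of_ne A v hwv] at h1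
      rw [s27gen_sub_apply, s27gen_smul_apply, he, s27gen_single_of_ne v _ hwv, mul_zero, sub_zero]
      exact h1
  have hdecomp : α = (α - c • e) + c • e := by abel
  rw [hdecomp]
  exact Submodule.add_mem _ (Submodule.mem_sup_left hmem)
    (Submodule.mem_sup_right (Submodule.smul_mem _ c (Submodule.mem_span_singleton_self e)))

/-- membership in `L(D)`, valuation form. -/
theorem s27gen_mem_L_iff {D : Divisor K F} {f : F} :
    f ∈ riemannRochSpace D ↔ ∀ w : Place K F, w.adicValuation f ≤ exp (D w) := Iff.rfl

include hx in
/-- `e ∈ S_A` iff `L(A + v)` is strictly bigger than `L(A)`. -/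
theorem s27gen_single_mem_S_iff (A : Divisor K F) (v : Place K F) {t : F}
    (ht : v.adicValuation t = exp (-1 : ℤ)) :
    s27gen_single v (t ^ (A v + 1))⁻¹ ∈ repartitionsOf A ⊔ principalRepartitions K F ↔
      ∃ f ∈ riemannRochSpace (A + Finsupp.single v 1), f ∉ riemannRochSpace A := by
  set n : ℤ := A v + 1 with hn
  set e := s27gen_single v (t ^ n)⁻¹ with he
  have ht0 : t ≠ 0 := by
    intro h0
    rw [h0, map_zero] at ht
    exact exp_ne_zero ht.symm
  have htn : t ^ n ≠ 0 := zpow_ne_zero _ ht0
  constructor
  · intro h
    obtain ⟨β, hβ, γ, hγ, hsum⟩ := Submodule.mem_sup.1 h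
    obtain ⟨f, hf⟩ := mem_principalRepartitions_iff.1 hγ
    have hval : ∀ w : Place K F, f = (e : Place K F → F) w - (β : Place K F → F) w := by
      intro w
      have h1 := congrArg (fun a : ↥(repartitions K F) => (a : Place K F → F) w) hsum
      simp only [s27gen_add_apply, hf] at h1
      rw [← h1]
      ring
    have hv : v.adicValuation f = exp (A v + 1) := by
      rw [hval v, he, s27gen_single_same]
      have h2 : v.adicValuation ((β : Place K F → F) v) < v.adicValuation (t ^ n)⁻¹ := by
        rw [s27gen_val_zpow_inv v ht]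
        refine lt_of_le_of_lt (hβ v) ?_
        rw [exp_lt_exp]
        omega
      rw [Valuation.map_sub_eq_of_lt_left _ h2, s27gen_val_zpow_inv v ht]
    refine ⟨f, ?_, ?_⟩
    · rw [s27gen_mem_L_iff]
      intro w
      by_cases hwv : w = v
      · subst hwv
        rw [hv, s27gen_add_single_same]
      · rw [s27gen_add_single_of_ne A v hwv, hval w, he, s27gen_single_of_ne v _ hwv, zero_sub,
          Valuation.map_neg]
        exact hβ w
    · rw [s27gen_mem_L_iff]
      intro hall
      have := hall v
      rw [hv, exp_le_exp] at this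
      omega
  · rintro ⟨f, hf1, hf2⟩
    rw [s27gen_mem_L_iff] at hf1 hf2
    -- the place where `f` fails to be in `L(A)` is `v`
    have hfv : ¬ v.adicValuation f ≤ exp (A v) := by
      intro hv
      apply hf2
      intro w
      by_cases hwv : w = v
      · subst hwv; exact hv
      · have := hf1 w
        rwa [s27gen_add_single_of_ne A v hwv] at this
    have hfv1 : v.adicValuation f ≤ exp n := by
      have := hf1 v
      rwa [s27gen_add_single_same] at this
    -- `q0 := f * t ^ n ∈ O_v`
    have hq : v.adicValuation (f * t ^ n) ≤ 1 := by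
      rw [map_mul, s27gen_val_zpow v ht]
      calc v.adicValuation f * exp (-n) ≤ exp n * exp (-n) := mul_le_mul_left hfv1 _
        _ = 1 := by rw [s27gen_exp_mul_exp, add_neg_cancel, exp_zero]
    obtain ⟨c, hc⟩ := s27gen_exists_const hx v hq
    have hc0 : c ≠ 0 := by
      rintro rfl
      apply hfv
      rw [map_zero, sub_zero, map_mul, s27gen_val_zpow v ht] at hc
      have h1 : v.adicValuation f = v.adicValuation f * exp (-n) * exp n := by
        rw [mul_assoc, s27gen_exp_mul_exp, neg_add_cancel, exp_zero, mul_one]
      rw [h1]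
      calc v.adicValuation f * exp (-n) * exp n ≤ exp (-1 : ℤ) * exp n := mul_le_mul_left hc _
        _ = exp (A v) := by rw [s27gen_exp_mul_exp, hn]; congr 1; ring
    have hcK : algebraMap K F c ≠ 0 := (map_ne_zero _).2 hc0
    have hcinv : ∀ w : Place K F, w.adicValuation (algebraMap K F c⁻¹) ≤ 1 :=
      fun w => w.adicValuation_algebraMap_le_one _
    have hmem : e - c⁻¹ • s27gen_const (K := K) f ∈ repartitionsOf A := by
      intro w
      by_cases hwv : w = v
      · subst hwv
        have hfac : ((e - c⁻¹ • s27gen_const (K := K) f : ↥(repartitions K F)) :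
            Place K F → F) w =
            (t ^ n)⁻¹ * (algebraMap K F c⁻¹ * (algebraMap K F c - f * t ^ n)) := by
          rw [s27gen_sub_apply, s27gen_smul_apply, he, s27gen_single_same, s27gen_const_apply,
            map_inv₀]
          field_simp
        rw [hfac, map_mul, map_mul, s27gen_val_zpow_inv w ht, Valuation.map_sub_swap]
        calc exp n * (w.adicValuation (algebraMap K F c⁻¹) *
              w.adicValuation (f * t ^ n - algebraMap K F c))
            ≤ exp n * (1 * exp (-1 : ℤ)) :=
              mul_le_mul_right (mul_le_mul' (hcinv w) hc) _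
          _ = exp (A w) := by rw [one_mul, s27gen_exp_mul_exp, hn]; congr 1; ring
      · rw [s27gen_sub_apply, s27gen_smul_apply, he, s27gen_single_of_ne v _ hwv,
          s27gen_const_apply, zero_sub, Valuation.map_neg, map_mul]
        have h1 := hf1 w
        rw [s27gen_add_single_of_ne A v hwv] at h1
        calc w.adicValuation (algebraMap K F c⁻¹) * w.adicValuation f
            ≤ 1 * exp (A w) := mul_le_mul' (hcinv w) h1
          _ = exp (A w) := one_mul _
    have hdecomp : e = (e - c⁻¹ • s27gen_const (K := K) f) + c⁻¹ • s27gen_const (K := K) f := by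
      abel
    rw [hdecomp]
    exact Submodule.add_mem _ (Submodule.mem_sup_left hmem)
      (Submodule.mem_sup_right (Submodule.smul_mem _ _ (s27gen_const_mem f)))

end step

end Fermat.Agent.S27
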