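/-
Project S27, cell (GEN) (helper1): `genusFF K F` (Weil repartitions of the Prelude) = the Riemann genus.
Prefix `s27gen_`.  Namespace `Fermat.Agent.S27`.

PART 2, DIMENSIONS.  `S_A := 𝔸(A) ⊔ principalRepartitions`, `H1 A = 𝔸 ⧸ S_A`.

* `s27gen_l_cases`        : `ℓ(A + v) = ℓ(A) + 1` if `L(A + v) ⊄ L(A)`, `= ℓ(A)` otherwise;
* `s27gen_H1_step`        : `H1 (A + v)` finite ⟹ `H1 A` finite and
                            `dim H1 A + ℓ(A + v) = dim H1 (A + v) + ℓ(A) + 1`;
* `s27gen_exists_bound`   : every repartition lies in some `𝔸(D)`;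
* `s27gen_S_eq_top`       : `S_B = ⊤` as soon as `deg B ≥ c` (`c` the threshold of Riemann's theorem);
* `s27gen_finrank_H1`     : `H1 A` is finite-dimensional of dimension `ℓ(A) - deg A - 1 + g`;
* `s27gen_genusFF_eq`     : `genusFF K F = g`.
-/
import Mathlib
import Fermat.Agent.S27.Genus.Step

set_option autoImplicit false
set_option linter.unusedSectionVars false
set_option linter.style.haveILetI false
set_option linter.unusedVariables false

noncomputable section

namespace Fermat.Agent.S27

open AlgebraicCurve Fermat.Agent.JT3 Fermat.Agent.S24 WithZero IntermediateField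

universe u v
variable {K : Type u} {F : Type v} [Field K] [Field F] [Algebra K F]

/-- `S_A = 𝔸(A) + F`. -/
abbrev s27gen_S (A : Divisor K F) : Submodule K ↥(repartitions K F) :=
  repartitionsOf A ⊔ principalRepartitions K F

theorem s27gen_S_mono {A B : Divisor K F} (h : A ≤ B) : s27gen_S A ≤ s27gen_S B :=
  sup_le_sup_right (repartitionsOf_mono h) _

section main

variable [IsAlgClosed K] {x : F} (hx : rt_IsSepGen K x)

include hx

/-! ### `ℓ(A + v)` versus `ℓ(A)` -/

theorem s27gen_l_cases (A : Divisor K F) (v : Place K F) :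
    ((∃ f ∈ riemannRochSpace (A + Finsupp.single v 1), f ∉ riemannRochSpace A) ∧
      Module.finrank K (riemannRochSpace (A + Finsupp.single v 1)) =
        Module.finrank K (riemannRochSpace A) + 1) ∨
    ((¬ ∃ f ∈ riemannRochSpace (A + Finsupp.single v 1), f ∉ riemannRochSpace A) ∧
      Module.finrank K (riemannRochSpace (A + Finsupp.single v 1)) =
        Module.finrank K (riemannRochSpace A)) := by
  have hle : A ≤ A + Finsupp.single v 1 := by
    rw [Finsupp.le_def]
    intro w
    by_cases hwv : w = v
    · subst hwv; rw [s27gen_add_single_same]; omega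
    · rw [s27gen_add_single_of_ne A v hwv]
  have hmono : riemannRochSpace A ≤ riemannRochSpace (A + Finsupp.single v 1) := rt_L_mono hle
  haveI := rt_L_finite hx (A + Finsupp.single v 1)
  haveI := rt_L_finite hx A
  obtain ⟨-, hstep⟩ := rt_L_step_finite hx A v (rt_L_finite hx A)
  by_cases hex : ∃ f ∈ riemannRochSpace (A + Finsupp.single v 1), f ∉ riemannRochSpace A
  · left
    refine ⟨hex, ?_⟩
    obtain ⟨f, hf1, hf2⟩ := hex
    have hlt : riemannRochSpace A < riemannRochSpace (A + Finsupp.single v 1) :=
      lt_of_le_of_ne hmono (fun h => hf2 (h ▸ hf1))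
    have := Submodule.finrank_lt_finrank_of_lt hlt
    omega
  · right
    refine ⟨hex, ?_⟩
    push Not at hex
    have h1 : riemannRochSpace (A + Finsupp.single v 1) ≤ riemannRochSpace A := fun f hf => hex f hf
    exact le_antisymm (Submodule.finrank_mono h1) (Submodule.finrank_mono hmono)

/-! ### the one-step dimension formula -/

theorem s27gen_H1_step (A : Divisor K F) (v : Place K F)
    (hfin : Module.Finite K (H1 (A + Finsupp.single v 1))) :
    Module.Finite K (H1 A) ∧
      (Module.finrank K (H1 A) : ℤ) + Module.finrank K (riemannRochSpace (A + Finsupp.single v 1)) =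
        Module.finrank K (H1 (A + Finsupp.single v 1)) + Module.finrank K (riemannRochSpace A) + 1 := by
  obtain ⟨t, ht0, ht⟩ := s27gen_exists_unif v
  set A' : Divisor K F := A + Finsupp.single v 1 with hA'
  set e := s27gen_single v (t ^ (A v + 1))⁻¹ with he
  have hle : A ≤ A' := by
    rw [Finsupp.le_def]
    intro w
    by_cases hwv : w = v
    · subst hwv; rw [hA', s27gen_add_single_same]; omega
    · rw [hA', s27gen_add_single_of_ne A v hwv]
  have hST : s27gen_S A ≤ s27gen_S A' := s27gen_S_mono hle
  set N : Submodule K (H1 A) := (s27gen_S A').map (s27gen_S A).mkQ with hN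
  have heT : e ∈ s27gen_S A' := Submodule.mem_sup_left (s27gen_single_mem A v ht)
  -- `N = K ∙ [e]`
  have hNspan : N = Submodule.span K {(s27gen_S A).mkQ e} := by
    apply le_antisymm
    · rintro y ⟨τ, hτ, rfl⟩
      obtain ⟨α, hα, γ, hγ, rfl⟩ := Submodule.mem_sup.1 hτ
      obtain ⟨β, hβ, ε, hε, rfl⟩ := Submodule.mem_sup.1 (s27gen_step_le hx A v ht hα)
      obtain ⟨c, rfl⟩ := Submodule.mem_span_singleton.1 hε
      have h0 : (s27gen_S A).mkQ (β + γ) = 0 := by
        rw [Submodule.mkQ_apply, Submodule.Quotient.mk_eq_zero]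
        exact Submodule.add_mem _ (Submodule.mem_sup_left hβ) (Submodule.mem_sup_right hγ)
      have h1 : (s27gen_S A).mkQ (β + c • e + γ) = c • (s27gen_S A).mkQ e := by
        have : β + c • e + γ = (β + γ) + c • e := by abel
        rw [this, map_add, h0, zero_add, map_smul]
      rw [h1]
      exact Submodule.smul_mem _ _ (Submodule.mem_span_singleton_self _)
    · rw [Submodule.span_le, Set.singleton_subset_iff]
      exact ⟨e, heT, rfl⟩
  -- `H1 A ⧸ N ≃ H1 A'`
  have eqv : (H1 A ⧸ N) ≃ₗ[K] H1 A' :=
    Submodule.quotientQuotientEquivQuotient (s27gen_S A) (s27gen_S A') hST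
  haveI : Module.Finite K (H1 A ⧸ N) := Module.Finite.equiv eqv.symm
  haveI : Module.Finite K ↥N := by
    rw [hNspan]
    infer_instance
  haveI hfinA : Module.Finite K (H1 A) := Module.Finite.of_submodule_quotient N
  refine ⟨hfinA, ?_⟩
  have hdim : Module.finrank K (H1 A ⧸ N) + Module.finrank K ↥N = Module.finrank K (H1 A) :=
    Submodule.finrank_quotient_add_finrank N
  rw [eqv.finrank_eq] at hdim
  have hiff := s27gen_single_mem_S_iff hx A v ht
  rcases s27gen_l_cases hx A v with ⟨hex, hl⟩ | ⟨hex, hl⟩
  · -- `e ∈ S_A`, `N = 0`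
    have heS : e ∈ s27gen_S A := hiff.2 hex
    have hN0 : Module.finrank K ↥N = 0 := by
      have : (s27gen_S A).mkQ e = 0 := by
        rw [Submodule.mkQ_apply, Submodule.Quotient.mk_eq_zero]
        exact heS
      rw [hNspan, this]
      simp
    rw [hl]
    push_cast
    omega
  · -- `e ∉ S_A`, `dim N = 1`
    have heS : e ∉ s27gen_S A := fun h => hex (hiff.1 h)
    have hN1 : Module.finrank K ↥N = 1 := by
      have : (s27gen_S A).mkQ e ≠ 0 := by
        rw [Submodule.mkQ_apply, Ne, Submodule.Quotient.mk_eq_zero]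
        exact heS
      rw [hNspan]
      exact finrank_span_singleton this
    rw [hl]
    omega

/-! ### every repartition is bounded by a divisor -/

theorem s27gen_finite_bad (α : ↥(repartitions K F)) :
    {w : Place K F | ¬ w.adicValuation ((α : Place K F → F) w) ≤ 1}.Finite := by
  obtain ⟨a, ha⟩ := α
  show {w : Place K F | ¬ w.adicValuation (a w) ≤ 1}.Finite
  induction ha using Algebra.adjoin_induction with
  | mem a ha => exact ha
  | algebraMap f =>
    refine (rt_finite_poles hx f).subset fun w hw => ?_
    exact w.not_adicValuation_le_one_iff.1 hw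
  | add a b _ _ ha hb =>
    refine (ha.union hb).subset fun w hw => ?_
    by_contra hcon
    rw [Set.mem_union, not_or] at hcon
    apply hw
    have h1 : w.adicValuation (a w) ≤ 1 := not_not.1 hcon.1
    have h2 : w.adicValuation (b w) ≤ 1 := not_not.1 hcon.2
    exact (Valuation.map_add _ _ _).trans (max_le h1 h2)
  | mul a b _ _ ha hb =>
    refine (ha.union hb).subset fun w hw => ?_
    by_contra hcon
    rw [Set.mem_union, not_or] at hcon
    apply hw
    have h1 : w.adicValuation (a w) ≤ 1 := not_not.1 hcon.1
    have h2 : w.adicValuation (b w) ≤ 1 := not_not.1 hcon.2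
    show w.adicValuation (a w * b w) ≤ 1
    rw [map_mul]
    exact mul_le_one' h1 h2

theorem s27gen_exists_bound (α : ↥(repartitions K F)) :
    ∃ D : Divisor K F, α ∈ repartitionsOf D := by
  classical
  have hfin := s27gen_finite_bad hx α
  refine ⟨∑ w ∈ hfin.toFinset,
    Finsupp.single w (log (w.adicValuation ((α : Place K F → F) w))), fun w => ?_⟩
  have hD : (∑ u ∈ hfin.toFinset,
      Finsupp.single u (log (u.adicValuation ((α : Place K F → F) u))) : Divisor K F) w =
      if w ∈ hfin.toFinset then log (w.adicValuation ((α : Place K F → F) w)) else 0 := by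
    rw [Finsupp.finsetSum_apply]
    simp only [Finsupp.single_apply]
    rw [Finset.sum_ite_eq']
  rw [hD]
  by_cases hw : w ∈ hfin.toFinset
  · rw [if_pos hw]
    have hw' : ¬ w.adicValuation ((α : Place K F → F) w) ≤ 1 := by
      simpa using hw
    have hne : w.adicValuation ((α : Place K F → F) w) ≠ 0 := by
      intro h0
      apply hw'
      rw [h0]
      exact zero_le
    rw [exp_log hne]
  · rw [if_neg hw, exp_zero]
    have hw' : ¬ ¬ w.adicValuation ((α : Place K F → F) w) ≤ 1 := by
      simpa using hw
    exact not_not.1 hw'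

/-! ### vanishing of `H1` in large degree -/

/-- above the threshold of Riemann's theorem, `S_C` does not depend on `C`. -/
theorem s27gen_S_eq_of_large {g : ℕ} {c : ℤ}
    (hc : ∀ D : Divisor K F, c ≤ Divisor.degree D →
      (Module.finrank K ↥(riemannRochSpace D) : ℤ) = Divisor.degree D + 1 - g)
    (B : Divisor K F) (hB : c ≤ Divisor.degree B) :
    ∀ (n : ℕ) (C : Divisor K F), B ≤ C → Divisor.degree C - Divisor.degree B = n →
      s27gen_S C = s27gen_S B := by
  classical
  intro n
  induction n with
  | zero =>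
    intro C hBC hdeg
    have : B = C := by
      by_contra hne
      have := rt_degree_lt_of_lt hx hBC hne
      simp only [Nat.cast_zero] at hdeg
      omega
    rw [this]
  | succ n ih =>
    intro C hBC hdeg
    have hne : B ≠ C := by
      rintro rfl
      simp only [Nat.cast_succ] at hdeg
      omega
    obtain ⟨v, hv⟩ : ∃ v, B v < C v := by
      by_contra hcon
      push Not at hcon
      apply hne
      ext w
      exact le_antisymm (Finsupp.le_def.mp hBC w) (hcon w)
    set C' : Divisor K F := C - Finsupp.single v 1 with hC'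
    have hCC' : C = C' + Finsupp.single v 1 := by rw [hC', sub_add_cancel]
    have hBC' : B ≤ C' := by
      rw [Finsupp.le_def]
      intro w
      rw [hC', Finsupp.sub_apply]
      by_cases hwv : w = v
      · subst hwv
        rw [Finsupp.single_eq_same]
        omega
      · rw [Finsupp.single_eq_of_ne hwv, sub_zero]
        exact Finsupp.le_def.mp hBC w
    have hdegC' : Divisor.degree C' = Divisor.degree C - 1 := by
      rw [hC', map_sub, rt_degree_single hx]
    have hdeg' : Divisor.degree C' - Divisor.degree B = n := by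
      rw [hdegC']
      simp only [Nat.cast_succ] at hdeg
      omega
    rw [← ih C' hBC' hdeg']
    -- one step `C' → C`
    have hle : C' ≤ C := by
      rw [hCC']
      rw [Finsupp.le_def]
      intro w
      by_cases hwv : w = v
      · subst hwv; rw [s27gen_add_single_same]; omega
      · rw [s27gen_add_single_of_ne C' v hwv]
    apply le_antisymm _ (s27gen_S_mono hle)
    obtain ⟨t, ht0, ht⟩ := s27gen_exists_unif v
    have hcC' : c ≤ Divisor.degree C' := by
      have := rt_degree_mono hx hBC'
      omega
    have hcC : c ≤ Divisor.degree C := by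
      have := rt_degree_mono hx hBC
      omega
    have hl1 := hc C' hcC'
    have hl2 := hc C hcC
    have hex : ∃ f ∈ riemannRochSpace (C' + Finsupp.single v 1), f ∉ riemannRochSpace C' := by
      rcases s27gen_l_cases hx C' v with ⟨hex, -⟩ | ⟨-, hl⟩
      · exact hex
      · exfalso
        rw [← hCC'] at hl
        rw [hl, hl1, hdegC'] at hl2
        omega
    have heS := (s27gen_single_mem_S_iff hx C' v ht).2 hex
    rw [hCC']
    refine sup_le ?_ le_sup_right
    refine (s27gen_step_le hx C' v ht).trans (sup_le le_sup_left ?_)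
    rw [Submodule.span_le, Set.singleton_subset_iff]
    exact heS

/-- `H1 B = 0` above the threshold of Riemann's theorem. -/
theorem s27gen_S_eq_top {g : ℕ} {c : ℤ}
    (hc : ∀ D : Divisor K F, c ≤ Divisor.degree D →
      (Module.finrank K ↥(riemannRochSpace D) : ℤ) = Divisor.degree D + 1 - g)
    (B : Divisor K F) (hB : c ≤ Divisor.degree B) : s27gen_S B = ⊤ := by
  rw [eq_top_iff]
  intro α _
  obtain ⟨D, hD⟩ := s27gen_exists_bound hx α
  have hBC : B ≤ B ⊔ D := le_sup_left
  have hdeg : 0 ≤ Divisor.degree (B ⊔ D) - Divisor.degree B := by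
    have := rt_degree_mono hx hBC
    omega
  obtain ⟨n, hn⟩ := Int.eq_ofNat_of_zero_le hdeg
  rw [← s27gen_S_eq_of_large hx hc B hB n (B ⊔ D) hBC hn]
  exact Submodule.mem_sup_left (repartitionsOf_mono (le_sup_right : D ≤ B ⊔ D) hD)

/-! ### the dimension of `H1 A` -/

omit hx in
theorem s27gen_nonempty_place (hx : rt_IsSepGen K x) : Nonempty (Place K F) := by
  by_contra hne
  rw [not_nonempty_iff] at hne
  have h1 := rt_degree_poleDiv hx hx.1
  have h0 : rt_poleDiv hx x = 0 := by
    ext w
    exact (hne.false w).elim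
  rw [h0, map_zero] at h1
  haveI := hx.2.1
  have hpos : 0 < Module.finrank K⟮x⟯ F := Module.finrank_pos
  omega

theorem s27gen_finrank_H1_aux {g : ℕ} {c : ℤ}
    (hc : ∀ D : Divisor K F, c ≤ Divisor.degree D →
      (Module.finrank K ↥(riemannRochSpace D) : ℤ) = Divisor.degree D + 1 - g) :
    ∀ (n : ℕ) (A : Divisor K F), c - Divisor.degree A ≤ n →
      Module.Finite K (H1 A) ∧
        (Module.finrank K (H1 A) : ℤ) =
          Module.finrank K ↥(riemannRochSpace A) - Divisor.degree A - 1 + g := by
  intro n
  induction n with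
  | zero =>
    intro A hA
    simp only [Nat.cast_zero] at hA
    have hcA : c ≤ Divisor.degree A := by omega
    have htop := s27gen_S_eq_top hx hc A hcA
    haveI hsub : Subsingleton (H1 A) := Submodule.Quotient.subsingleton_iff.2 htop
    haveI hfinite : Finite (H1 A) := Finite.of_subsingleton
    refine ⟨Module.Finite.of_finite, ?_⟩
    rw [Module.finrank_zero_of_subsingleton, hc A hcA]
    push_cast
    ring
  | succ n ih =>
    intro A hA
    obtain ⟨v⟩ := s27gen_nonempty_place hx
    have hdeg : Divisor.degree (A + Finsupp.single v 1) = Divisor.degree A + 1 := by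
      rw [map_add, rt_degree_single hx]
    have hA' : c - Divisor.degree (A + Finsupp.single v 1) ≤ n := by
      rw [hdeg]
      simp only [Nat.cast_succ] at hA
      omega
    obtain ⟨hfin, hdim⟩ := ih (A + Finsupp.single v 1) hA'
    obtain ⟨hfinA, hstep⟩ := s27gen_H1_step hx A v hfin
    refine ⟨hfinA, ?_⟩
    rw [hdeg] at hdim
    omega

/-- **`H1 A` is finite-dimensional of dimension `ℓ(A) - deg A - 1 + g`** (Stichtenoth, Thm. 1.5.4),
`g` the genus and `c` the threshold of Riemann's theorem `rt_riemann`. -/
theorem s27gen_finrank_H1 {g : ℕ} {c : ℤ}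
    (hc : ∀ D : Divisor K F, c ≤ Divisor.degree D →
      (Module.finrank K ↥(riemannRochSpace D) : ℤ) = Divisor.degree D + 1 - g)
    (A : Divisor K F) :
    Module.Finite K (H1 A) ∧
      (Module.finrank K (H1 A) : ℤ) =
        Module.finrank K ↥(riemannRochSpace A) - Divisor.degree A - 1 + g := by
  have h0 : 0 ≤ max (c - Divisor.degree A) 0 := le_max_right _ _
  obtain ⟨n, hn⟩ := Int.eq_ofNat_of_zero_le h0
  exact s27gen_finrank_H1_aux hx hc n A (by rw [← hn]; exact le_max_left _ _)

/-- **`genusFF K F` is the genus of Riemann's theorem.** -/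
theorem s27gen_genusFF_eq {g : ℕ} {c : ℤ}
    (hc : ∀ D : Divisor K F, c ≤ Divisor.degree D →
      (Module.finrank K ↥(riemannRochSpace D) : ℤ) = Divisor.degree D + 1 - g) :
    genusFF K F = g := by
  obtain ⟨-, h⟩ := s27gen_finrank_H1 hx hc (0 : Divisor K F)
  rw [rt_finrank_L_zero hx, map_zero] at h
  have : (genusFF K F : ℤ) = g := by
    show (Module.finrank K (H1 (0 : Divisor K F)) : ℤ) = g
    rw [h]
    push_cast
    ring
  exact_mod_cast this

/-- Riemann's inequality for the `g` of Riemann's theorem, from `dim H1 ≥ 0`. -/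
theorem s27gen_riemann_ineq {g : ℕ} {c : ℤ}
    (hc : ∀ D : Divisor K F, c ≤ Divisor.degree D →
      (Module.finrank K ↥(riemannRochSpace D) : ℤ) = Divisor.degree D + 1 - g)
    (A : Divisor K F) :
    Divisor.degree A + 1 - g ≤ (Module.finrank K ↥(riemannRochSpace A) : ℤ) := by
  obtain ⟨-, h⟩ := s27gen_finrank_H1 hx hc A
  have h0 : (0 : ℤ) ≤ Module.finrank K (H1 A) := Int.natCast_nonneg _
  omega

/-- **`genusFF K F` is the genus of `rt_exists_genus`** (characterised by Riemann's inequality +
one divisor with equality). -/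
theorem s27gen_genusFF_eq' {g : ℕ}
    (hg : ∀ A : Divisor K F,
      Divisor.degree A + 1 - g ≤ (Module.finrank K ↥(riemannRochSpace A) : ℤ))
    (hA₀ : ∃ A₀ : Divisor K F,
      Divisor.degree A₀ + 1 - g = (Module.finrank K ↥(riemannRochSpace A₀) : ℤ)) :
    genusFF K F = g := by
  obtain ⟨g', c, hgc⟩ := rt_riemann hx
  have hc : ∀ D : Divisor K F, c ≤ Divisor.degree D →
      (Module.finrank K ↥(riemannRochSpace D) : ℤ) = Divisor.degree D + 1 - g' :=
    fun D hD => (hgc D).2 hD
  rw [s27gen_genusFF_eq hx hc]
  -- `g' = g`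
  obtain ⟨A₀, hA₀⟩ := hA₀
  have h1 := s27gen_riemann_ineq hx hc A₀
  -- a divisor of large degree
  obtain ⟨v⟩ := s27gen_nonempty_place hx
  have h0 : 0 ≤ max c 0 := le_max_right _ _
  obtain ⟨m, hm⟩ := Int.eq_ofNat_of_zero_le h0
  have hdegD : Divisor.degree (Finsupp.single v (m : ℤ) : Divisor K F) = m :=
    rt_degree_single hx v m
  have hcD : c ≤ Divisor.degree (Finsupp.single v (m : ℤ) : Divisor K F) := by
    rw [hdegD, ← hm]
    exact le_max_left _ _
  have h2 := hc _ hcD
  have h3 := hg (Finsupp.single v (m : ℤ) : Divisor K F)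
  omega

end main

end Fermat.Agent.S27
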